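import Fermat.Agent.S25.DefsDict

/-!
# Row S25, block ABEL: interface between the algebra side and the scheme side (helper746)

The Abel family is the family of line bundles `O(Γ_{p₁} + … + Γ_{p_g} − g·ε)` on `C × C^g`.
On the algebra side it is a rule `F` assigning a gluing datum over `A` to every `g`-tuple of
*chart points* of the curve with values in `A` (a chart point is an `A`-valued point of one of
the two charts `Spec B₀`, `Spec B₁`), compatible with base change and independent of the choice
of charts.  The scheme side (files `Power`, `AbelGlue`, `AbelFamily` of this directory) turns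
such a rule into the frozen statement `Stmt.Abel`.

Only definitions here.
-/

set_option autoImplicit false
universe u
open CategoryTheory CategoryTheory.Limits AlgebraicGeometry AlgebraicGeometry.RelPicard
  NeronModelInfra GoodReductionJacobian
open scoped TensorProduct

namespace Fermat.Agent.S25.H746

open Fermat.Agent.S25

noncomputable section

section Alg

variable (k : Type u) [Field k] (B₀ B₁ B₀₁ : Type u) [CommRing B₀] [CommRing B₁] [CommRing B₀₁]
  [Algebra k B₀] [Algebra k B₁] [Algebra k B₀₁] [Algebra B₀ B₀₁] [Algebra B₁ B₀₁]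
  [IsScalarTower k B₀ B₀₁] [IsScalarTower k B₁ B₀₁]

/-- A chart point of the curve with values in `A`: an `A`-valued point of `Spec B₀` or of
`Spec B₁`. -/
abbrev ChartPt (A : Type u) [CommRing A] [Algebra k A] : Type u :=
  (B₀ →ₐ[k] A) ⊕ (B₁ →ₐ[k] A)

variable {k B₀ B₁ B₀₁}

/-- Base change of a chart point along `ψ : A → A'`. -/
def ChartPt.map {A A' : Type u} [CommRing A] [Algebra k A] [CommRing A'] [Algebra k A']
    (ψ : A →ₐ[k] A') : ChartPt k B₀ B₁ A → ChartPt k B₀ B₁ A' :=
  Sum.map (fun φ => ψ.comp φ) (fun φ => ψ.comp φ)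

variable (B₀₁) in
/-- Two chart points define the same `A`-valued point of the curve: they are equal, or they
are the two chart descriptions of an `A`-valued point of the intersection `Spec B₀₁`. -/
def ChartPt.Same {A : Type u} [CommRing A] [Algebra k A] (P Q : ChartPt k B₀ B₁ A) : Prop :=
  P = Q ∨ ∃ φ : B₀₁ →ₐ[k] A,
    (P = Sum.inl (φ.comp (IsScalarTower.toAlgHom k B₀ B₀₁)) ∧
        Q = Sum.inr (φ.comp (IsScalarTower.toAlgHom k B₁ B₀₁))) ∨
      (P = Sum.inr (φ.comp (IsScalarTower.toAlgHom k B₁ B₀₁)) ∧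
        Q = Sum.inl (φ.comp (IsScalarTower.toAlgHom k B₀ B₀₁)))

variable (k B₀ B₁ B₀₁)

/-- The algebraic Abel family: gluing data `F A P` (think `O(Σ Γ_{P i} − g·ε)`) attached to
`g`-tuples `P` of chart points with values in `A`. -/
structure AlgAbelFamily (e : B₁ →ₐ[k] k) where
  /-- the number of points (the genus) -/
  g : ℕ
  /-- the gluing datum of `O(Σ Γ_{P i} − g·ε)` -/
  F : ∀ (A : Type u) [CommRing A] [Algebra k A],
    (Fin g → ChartPt k B₀ B₁ A) → CurveGD k B₀ B₁ B₀₁ A
  /-- compatibility with base change -/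
  bc : ∀ (A A' : Type u) [CommRing A] [Algebra k A] [CommRing A'] [Algebra k A']
    (ψ : A →ₐ[k] A') (P : Fin g → ChartPt k B₀ B₁ A),
    CurveGD.IsBC ψ (F A P) (F A' (fun i => (P i).map ψ))
  /-- independence of the choice of charts -/
  same : ∀ (A : Type u) [CommRing A] [Algebra k A] (P Q : Fin g → ChartPt k B₀ B₁ A),
    (∀ i, ChartPt.Same B₀₁ (P i) (Q i)) → (F A P).IsIso (F A Q)
  /-- Zariski-locally on `Spec A` the datum is rigidifiable -/
  locRig : ∀ (A : Type u) [CommRing A] [Algebra k A] (P : Fin g → ChartPt k B₀ B₁ A)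
    (𝔭 : Ideal A), 𝔭.IsPrime → ∃ f : A, f ∉ 𝔭 ∧
      ∀ (A' : Type u) [CommRing A'] [Algebra k A'] (ψ : A →ₐ[k] A'), IsUnit (ψ f) →
        (F A' (fun i => (P i).map ψ)).Rigidifiable e
  /-- at the tuple `(ε, …, ε)` the datum is trivial -/
  triv : (F k (fun _ => Sum.inr e)).IsIso (GlueDatum.unit k (k ⊗[k] B₀) (k ⊗[k] B₁) (k ⊗[k] B₀₁))
  /-- over an algebraically closed field every datum of degree `0` is in the family -/
  surj : ∀ (K : Type u) [Field K] [IsAlgClosed K] [Algebra k K] (G : CurveGD k B₀ B₁ B₀₁ K),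
    G.Deg0 → ∃ P : Fin g → ChartPt k B₀ B₁ K, G.IsIso (F K P)

namespace Stmt

/-- ALG-ABEL: every curve chart has an algebraic Abel family. -/
def AlgAbel : Prop :=
  ∀ (x : B₀) (y : B₁) (e : B₁ →ₐ[k] k), IsCurveChart k B₀ B₁ B₀₁ x y e →
    Nonempty (AlgAbelFamily k B₀ B₁ B₀₁ e)

end Stmt

end Alg

section Dict

variable {k : Type u} [Field k] {C : Scheme.{u}} {c : C ⟶ Spec (CommRingCat.of k)}
  {ε : SchemeHomOver (𝟙 (Spec (CommRingCat.of k))) c}

namespace Stmt

/-- DICT-UNIT: the unit gluing datum is the gluing datum of sections of the unit bundle. -/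
def DictUnit (Ch : ChartOf c ε) : Prop :=
  ∀ (A : Type u) [CommRing A] [Algebra k A],
    Corr Ch A (RigidifiedLineBundle.unit (c := c) (ε := ε) (specStr k A)).L
      (GlueDatum.unit A (A ⊗[k] Ch.B₀) (A ⊗[k] Ch.B₁) (A ⊗[k] Ch.B₀₁))

/-- DICT-DEG, direction `⇒` only (this is the direction used to prove `Stmt.Abel`; the
direction `⇐` is a consequence of the Abel family). -/
def DictDegMp (Ch : ChartOf c ε) : Prop :=
  ∀ (A : Type u) [CommRing A] [Algebra k A] (M : RigidifiedLineBundle c ε (specStr k A))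
    (G : CurveGD k Ch.B₀ Ch.B₁ Ch.B₀₁ A), Corr Ch A M.L G →
      FibrewiseAlgEquivZero M → G.Deg0

/-- ABEL-FAMILY: the scheme-level Abel family, in the form needed both for `Stmt.Abel` and
for the direction `⇐` of `Stmt.DictDeg`: a proper geometrically integral `X`, a rigidified
bundle over it that is fibrewise algebraically equivalent to zero, and whose fibres realise
every line bundle over an algebraically closed field whose gluing datum has degree zero. -/
def AbelFamily (Ch : ChartOf c ε) : Prop :=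
  ∃ (X : Scheme.{u}) (x : X ⟶ Spec (CommRingCat.of k)) (_ : IsProper x)
    (_ : GeometricallyIntegral x) (M : RigidifiedLineBundle c ε x),
    FibrewiseAlgEquivZero M ∧
      ∀ (K : Type u) [Field K] [IsAlgClosed K] [Algebra k K]
        (L : RigidifiedLineBundle c ε (specStr k K)) (G : CurveGD k Ch.B₀ Ch.B₁ Ch.B₀₁ K),
        Corr Ch K L.L G → G.Deg0 →
        ∃ p : SchemeHomOver (specStr k K) x, RIso (M.pullbackAlong p) L

/-- ABEL-FAMILY, pointed form: as `AbelFamily`, but exposing a `k`-point `t₀` of `X` over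
which the bundle is trivial (this implies `FibrewiseAlgEquivZero M`). -/
def AbelFamilyPt (Ch : ChartOf c ε) : Prop :=
  ∃ (X : Scheme.{u}) (x : X ⟶ Spec (CommRingCat.of k)) (_ : IsProper x)
    (_ : GeometricallyIntegral x) (M : RigidifiedLineBundle c ε x)
    (t₀ : SchemeHomOver (𝟙 (Spec (CommRingCat.of k))) x),
    RIso (M.pullbackAlong t₀)
        (RigidifiedLineBundle.unit (c := c) (ε := ε) (𝟙 (Spec (CommRingCat.of k)))) ∧
      ∀ (K : Type u) [Field K] [IsAlgClosed K] [Algebra k K]
        (L : RigidifiedLineBundle c ε (specStr k K)) (G : CurveGD k Ch.B₀ Ch.B₁ Ch.B₀₁ K),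
        Corr Ch K L.L G → G.Deg0 →
        ∃ p : SchemeHomOver (specStr k K) x, RIso (M.pullbackAlong p) L

end Stmt

end Dict

end

end Fermat.Agent.S25.H746
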