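import Fermat.Agent.S25.H746.AbelGlue

/-!
# Row S25, block ABEL (helper746): the Abel family and `Stmt.Abel`

* `abelFamily_of_alg : Stmt.AbelFamily Ch` from `SheafGlue`, the dictionary and an algebraic
  Abel family;
* `abel_of_abelFamily : Stmt.Abel c ε` from `Stmt.AbelFamily Ch`, `DictSections`, `DictDegMp`.
-/

set_option autoImplicit false
universe u
open CategoryTheory CategoryTheory.Limits AlgebraicGeometry AlgebraicGeometry.RelPicard
  NeronModelInfra GoodReductionJacobian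
open scoped TensorProduct

namespace Fermat.Agent.S25.H746

open Fermat.Agent.S25 Fermat.Agent.S25.H327

noncomputable section

variable {k : Type u} [Field k] {C : Scheme.{u}} {c : C ⟶ Spec (CommRingCat.of k)}
  {ε : SchemeHomOver (𝟙 (Spec (CommRingCat.of k))) c}

section Triv

variable (Ch : ChartOf c ε) (Fam : AlgAbelFamily k Ch.B₀ Ch.B₁ Ch.B₀₁ Ch.e)
  {T : Scheme.{u}} (t : T ⟶ Spec (CommRingCat.of k)) (q : Fin Fam.g → SchemeHomOver t c)
  (hDG : Stmt.DictGlue Ch) (hDI : Stmt.DictIso Ch) (hDB : Stmt.DictBC Ch)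
  (hDU : Stmt.DictUnit Ch)

/-- The identity of `Spec k`, as a morphism from `𝟙` to `specStr k k`. -/
def idToSpecStr : SchemeHomOver (𝟙 (Spec (CommRingCat.of k))) (specStr k k) :=
  ⟨𝟙 _, by rw [Category.id_comp, specStr_self]⟩

lemma rIso_unit_pullbackAlong {T T' : Scheme.{u}} {t : T ⟶ Spec (CommRingCat.of k)}
    {t' : T' ⟶ Spec (CommRingCat.of k)} (ψ : SchemeHomOver t' t) :
    RIso ((RigidifiedLineBundle.unit (c := c) (ε := ε) t).pullbackAlong ψ)
      (RigidifiedLineBundle.unit (c := c) (ε := ε) t') :=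
  ⟨Scheme.Modules.pullbackUnitIso _⟩

include hDI hDB hDU in
/-- If all `q i` send the `k`-point `t₀` to `ε`, the glued bundle is trivial over `t₀`. -/
theorem rIso_unit_of_eps (M₀ : RigidifiedLineBundle c ε t)
    (hM₀ : ∀ π : Piece Ch Fam t q, RIso (restrictOpen M₀ π.V) (onOpen t π.V (π.bundle hDG)))
    (t₀ : SchemeHomOver (𝟙 (Spec (CommRingCat.of k))) t)
    (ht₀ : ∀ i, t₀.1 ≫ (q i).1 = ε.1) :
    RIso (M₀.pullbackAlong t₀)
      (RigidifiedLineBundle.unit (c := c) (ε := ε) (𝟙 (Spec (CommRingCat.of k)))) := by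
  let p₀ : SchemeHomOver (specStr k k) t := ⟨t₀.1, t₀.2.trans specStr_self.symm⟩
  obtain ⟨N, a, h, hN, hcorr⟩ := exists_fibre hDG hDB M₀ hM₀ p₀
  have hpt : ∀ i, postComp (q i) p₀ = epsPt (ε := ε) := fun i => Subtype.ext (ht₀ i)
  have hs : ∀ i, ChartPt.Same Ch.B₀₁ (kcp Ch (postComp (q i) p₀) (a i) (h i))
      (Sum.inr Ch.e : ChartPt k Ch.B₀ Ch.B₁ k) := by
    intro i
    have h1 : (postComp (q i) p₀).1 ⁻¹ᵁ chartOpen Ch true = ⊤ := by
      rw [hpt i]; exact epsPt_preimage Ch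
    have h2 : kcp Ch (postComp (q i) p₀) true h1 = Sum.inr Ch.e := by
      have := kcp_epsPt Ch (epsPt_preimage Ch)
      rw [← this]
      congr 1
      exact hpt i
    rw [← h2]
    exact kcp_same Ch _ _ _ _ _
  have e1 : (Fam.F k (fun i => kcp Ch (postComp (q i) p₀) (a i) (h i))).IsIso
      (GlueDatum.unit k (k ⊗[k] Ch.B₀) (k ⊗[k] Ch.B₁) (k ⊗[k] Ch.B₀₁)) :=
    gdIsIso_trans (Fam.same _ _ _ hs) Fam.triv
  have e2 : RIso N (RigidifiedLineBundle.unit (c := c) (ε := ε) (specStr k k)) :=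
    (hDI k N _ _ _ hcorr (hDU k)).2 e1
  have e3 : t₀ = postComp p₀ idToSpecStr := Subtype.ext (Category.id_comp _).symm
  have e4 := rIso_of_eq M₀ e3
  have e5 := rIso_pullbackAlong_comp M₀ p₀ idToSpecStr
  have e6 : RIso ((M₀.pullbackAlong p₀).pullbackAlong idToSpecStr)
      (N.pullbackAlong idToSpecStr) := RigidifiedLineBundle.pullbackAlong_congr _ hN
  have e7 : RIso (N.pullbackAlong idToSpecStr)
      ((RigidifiedLineBundle.unit (c := c) (ε := ε) (specStr k k)).pullbackAlong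
        idToSpecStr) := RigidifiedLineBundle.pullbackAlong_congr _ e2
  exact rIso_trans e4 (rIso_trans e5 (rIso_trans e6 (rIso_trans e7
    (rIso_unit_pullbackAlong _))))

end Triv

section Main

lemma kcp_same_of_eq (Ch : ChartOf c ε) {A : Type u} [CommRing A] [Algebra k A]
    {r r' : SchemeHomOver (specStr k A) c} (e : r = r') (a a' : Bool)
    (h : r.1 ⁻¹ᵁ chartOpen Ch a = ⊤) (h' : r'.1 ⁻¹ᵁ chartOpen Ch a' = ⊤) :
    ChartPt.Same Ch.B₀₁ (kcp Ch r a h) (kcp Ch r' a' h') := by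
  subst e
  exact kcp_same Ch _ _ _ _ _

variable [IsAlgClosed k] [IsProper c] [IsIntegral C]

/-- **ABEL-FAMILY.** The scheme-level Abel family over `C^g`, from the gluing statement, the
dictionary and an algebraic Abel family. -/
theorem abelFamily_of_alg (Ch : ChartOf c ε) (hGlue : Stmt.SheafGlue c ε)
    (hDG : Stmt.DictGlue Ch) (hDI : Stmt.DictIso Ch) (hDB : Stmt.DictBC Ch)
    (hDU : Stmt.DictUnit Ch) (Fam : AlgAbelFamily k Ch.B₀ Ch.B₁ Ch.B₀₁ Ch.e) :
    Stmt.AbelFamilyPt Ch := by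
  let D := H385.powData c Fam.g
  let q : Fin Fam.g → SchemeHomOver D.hom c := fun i => ⟨D.proj i, D.proj_comp i⟩
  obtain ⟨M₀, hM₀⟩ := exists_glued (Ch := Ch) (Fam := Fam) (t := D.hom) (q := q) hDG hDI hDB
    hGlue
  let t₀ : SchemeHomOver (𝟙 (Spec (CommRingCat.of k))) D.hom :=
    ⟨D.lift (𝟙 _) (fun _ => ε.1) (fun _ => ε.2), D.lift_hom _ _ _⟩
  refine ⟨D.X, D.hom, H385.powData_isProper c _, H385.powData_geometricallyIntegral k c _,
    M₀, t₀, ?_, ?_⟩
  · exact rIso_unit_of_eps Ch Fam D.hom q hDG hDI hDB hDU M₀ hM₀ t₀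
      (fun i => D.lift_proj _ _ _ i)
  · intro K _ _ _ L G hcorr hdeg
    obtain ⟨P, hP⟩ := Fam.surj K G hdeg
    let p : SchemeHomOver (specStr k K) D.hom :=
      ⟨D.lift (specStr k K) (fun i => (ptOfChartPt Ch (P i)).1)
        (fun i => (ptOfChartPt Ch (P i)).2), D.lift_hom _ _ _⟩
    have hp : ∀ i, postComp (q i) p = ptOfChartPt Ch (P i) := fun i =>
      Subtype.ext (D.lift_proj _ _ _ i)
    obtain ⟨N, a, h, hN, hNcorr⟩ := exists_fibre hDG hDB M₀ hM₀ p
    have hs : ∀ i, ChartPt.Same Ch.B₀₁ (kcp Ch (postComp (q i) p) (a i) (h i)) (P i) := by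
      intro i
      have h1 := kcp_same_of_eq Ch (hp i) (a i) (chartOf Ch (P i)) (h i)
        (ptOfChartPt_preimage Ch (P i))
      rw [kcp_ptOfChartPt] at h1
      exact h1
    have e1 : (Fam.F K (fun i => kcp Ch (postComp (q i) p) (a i) (h i))).IsIso G :=
      gdIsIso_trans (Fam.same _ _ _ hs) (gdIsIso_symm hP)
    have e2 : RIso N L := (hDI K N L _ _ hNcorr hcorr).2 e1
    exact ⟨p, rIso_trans hN e2⟩

omit [IsAlgClosed k] [IsProper c] [IsIntegral C] in
/-- The pointed form of the Abel family implies the unpointed one. -/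
theorem abelFamily_of_abelFamilyPt (Ch : ChartOf c ε) (hFam : Stmt.AbelFamilyPt Ch) :
    Stmt.AbelFamily Ch := by
  obtain ⟨X, x, hx, hgi, M, t₀, htriv, hsurj⟩ := hFam
  refine ⟨X, x, hx, hgi, M, ?_, hsurj⟩
  have := hx
  have := hgi
  exact H206.fibrewiseAlgEquivZero_of_trivial_fibre x M t₀ htriv

omit [IsAlgClosed k] [IsProper c] [IsIntegral C] in
/-- **ABEL.** The frozen statement `Stmt.Abel` from the Abel family, `DictSections` and the
direction `⇒` of `DictDeg`. -/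
theorem abel_of_abelFamily (Ch : ChartOf c ε) (hFam : Stmt.AbelFamily Ch)
    (hDS : Stmt.DictSections Ch) (hDeg : Stmt.DictDegMp Ch) : Stmt.Abel c ε := by
  obtain ⟨X, x, hx, hgi, M, hM, hsurj⟩ := hFam
  refine ⟨X, x, hx, hgi, M, hM, ?_⟩
  intro K _ _ _ L hL
  obtain ⟨G, hG, -⟩ := hDS K L
  exact hsurj K L G hG (hDeg K L G hG hL)

/-- `Stmt.Abel` from the frozen statements of the row and an algebraic Abel family. -/
theorem abel_of_alg (Ch : ChartOf c ε) (hGlue : Stmt.SheafGlue c ε)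
    (hDS : Stmt.DictSections Ch) (hDG : Stmt.DictGlue Ch) (hDI : Stmt.DictIso Ch)
    (hDB : Stmt.DictBC Ch) (hDeg : Stmt.DictDeg Ch) (hDU : Stmt.DictUnit Ch)
    (hAlg : Stmt.AlgAbel k Ch.B₀ Ch.B₁ Ch.B₀₁) : Stmt.Abel c ε := by
  obtain ⟨Fam⟩ := hAlg Ch.x Ch.y Ch.e Ch.isCurveChart
  exact abel_of_abelFamily Ch
    (abelFamily_of_abelFamilyPt Ch (abelFamily_of_alg Ch hGlue hDG hDI hDB hDU Fam)) hDS
    (fun A _ _ M G hG hM => (hDeg A M G hG).1 hM)

end Main

end

end Fermat.Agent.S25.H746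

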