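import Fermat.Agent.S25.H746.ChartPts
import Fermat.Agent.S25.H385.GeomIntegral
import Fermat.Agent.S25.H206.FamilyAlgEquivZero

/-!
# Row S25, block ABEL (helper746): gluing the Abel family

Given a two-chart presentation `Ch`, the dictionary (`DictGlue`, `DictIso`, `DictBC`), the
gluing statement `SheafGlue` and an algebraic Abel family `Fam`, every `g`-tuple `q` of
morphisms `T ⟶ C` of `k`-schemes defines a rigidified line bundle on `C × T`, unique up to
isomorphism, whose fibres at field-valued points are computed by `Fam.F`.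
-/

set_option autoImplicit false
universe u
open CategoryTheory CategoryTheory.Limits AlgebraicGeometry AlgebraicGeometry.RelPicard
  NeronModelInfra GoodReductionJacobian
open scoped TensorProduct

namespace Fermat.Agent.S25.H746

open Fermat.Agent.S25 Fermat.Agent.S25.H327

noncomputable section

section GD

variable {A R₀ R₁ R₀₁ : Type u} [CommRing A] [CommRing R₀] [CommRing R₁]
    [CommRing R₀₁] [Algebra A R₀] [Algebra A R₁] [Algebra A R₀₁] [Algebra R₀ R₀₁]
    [Algebra R₁ R₀₁] [IsScalarTower A R₀ R₀₁] [IsScalarTower A R₁ R₀₁]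

theorem gdIsIso_symm {G G' : GlueDatum A R₀ R₁ R₀₁} (h : G.IsIso G') : G'.IsIso G := by
  obtain ⟨e⟩ := h
  refine ⟨⟨e.e₀.symm, e.e₁.symm, e.e₀₁.symm, fun s => ?_, fun s => ?_⟩⟩
  · rw [LinearEquiv.symm_apply_eq, e.comm₀, LinearEquiv.apply_symm_apply]
  · rw [LinearEquiv.symm_apply_eq, e.comm₁, LinearEquiv.apply_symm_apply]

theorem gdIsIso_trans {G G' G'' : GlueDatum A R₀ R₁ R₀₁} (h : G.IsIso G') (h' : G'.IsIso G'') :
    G.IsIso G'' := by
  obtain ⟨e⟩ := h
  obtain ⟨e'⟩ := h'
  refine ⟨⟨e.e₀.trans e'.e₀, e.e₁.trans e'.e₁, e.e₀₁.trans e'.e₀₁, fun s => ?_, fun s => ?_⟩⟩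
  · simp only [LinearEquiv.trans_apply, e.comm₀, e'.comm₀]
  · simp only [LinearEquiv.trans_apply, e.comm₁, e'.comm₁]

end GD

variable {k : Type u} [Field k] {C : Scheme.{u}} {c : C ⟶ Spec (CommRingCat.of k)}
  {ε : SchemeHomOver (𝟙 (Spec (CommRingCat.of k))) c}

section OnOpen

variable {T : Scheme.{u}} (t : T ⟶ Spec (CommRingCat.of k))

/-- Transport of a bundle over `Spec Γ(T, V)` to the open subscheme `V`. -/
def onOpen (V : T.Opens) (N : RigidifiedLineBundle c ε (specStr k (SecRing t V))) :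
    RigidifiedLineBundle c ε (V.ι ≫ t) :=
  N.pullbackAlong (toSpecSec t V)

lemma rIso_onOpen {V : T.Opens} {N N' : RigidifiedLineBundle c ε (specStr k (SecRing t V))}
    (h : RIso N N') : RIso (onOpen t V N) (onOpen t V N') :=
  RigidifiedLineBundle.pullbackAlong_congr _ h

lemma rIso_restrictLE_onOpen {V W : T.Opens} (h : W ≤ V)
    (N : RigidifiedLineBundle c ε (specStr k (SecRing t V))) :
    RIso (restrictLE (onOpen t V N) h)
      (onOpen t W (N.pullbackAlong (specHomOver k (resAlg t h)))) := by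
  have e1 := rIso_pullbackAlong_comp N (toSpecSec t V) (inclLE t h)
  have e2 := rIso_pullbackAlong_comp N (specHomOver k (resAlg t h)) (toSpecSec t W)
  have e3 := rIso_of_eq N (postComp_toSpecSec_inclLE t h)
  exact rIso_trans (rIso_symm e1) (rIso_trans e3 e2)

variable {A : Type u} [CommRing A] [Algebra k A]

lemma rIso_pullbackAlong_pt (M₀ : RigidifiedLineBundle c ε t) (V : T.Opens)
    (N : RigidifiedLineBundle c ε (specStr k (SecRing t V)))
    (hN : RIso (restrictOpen M₀ V) (onOpen t V N))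
    (p : SchemeHomOver (specStr k A) t) (hp : p.1 ⁻¹ᵁ V = ⊤) :
    RIso (M₀.pullbackAlong p) (N.pullbackAlong (specHomOver k (ptAlg p V hp))) := by
  have e1 := rIso_of_eq M₀ (postComp_liftPt p V hp).symm
  have e2 := rIso_pullbackAlong_comp M₀ (⟨V.ι, rfl⟩ : SchemeHomOver (V.ι ≫ t) t)
    (liftPt p V hp)
  have e3 : RIso ((restrictOpen M₀ V).pullbackAlong (liftPt p V hp))
      ((onOpen t V N).pullbackAlong (liftPt p V hp)) :=
    RigidifiedLineBundle.pullbackAlong_congr _ hN
  have e4 := rIso_pullbackAlong_comp N (toSpecSec t V) (liftPt p V hp)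
  have e5 := rIso_of_eq N (postComp_toSpecSec_liftPt p V hp)
  exact rIso_trans e1 (rIso_trans e2 (rIso_trans e3 (rIso_trans (rIso_symm e4) e5)))

end OnOpen

section Family

variable (Ch : ChartOf c ε) (Fam : AlgAbelFamily k Ch.B₀ Ch.B₁ Ch.B₀₁ Ch.e)
  {T : Scheme.{u}} (t : T ⟶ Spec (CommRingCat.of k)) (q : Fin Fam.g → SchemeHomOver t c)

/-- A piece of the cover of `T`: an open `V` on which every `q i` lands in a chart `U_{a i}`
and on which the gluing datum of the family is rigidifiable. -/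
structure Piece where
  /-- the open set -/
  V : T.Opens
  /-- the charts -/
  a : Fin Fam.g → Bool
  le : ∀ i, V ≤ (q i).1 ⁻¹ᵁ chartOpen Ch (a i)
  rig : (Fam.F (SecRing t V) (fun i => cp Ch (q i) V (a i) (le i))).Rigidifiable Ch.e

variable {Ch Fam t q}

/-- The tuple of chart points of a piece. -/
def Piece.tuple (π : Piece Ch Fam t q) : Fin Fam.g → ChartPt k Ch.B₀ Ch.B₁ (SecRing t π.V) :=
  fun i => cp Ch (q i) π.V (π.a i) (π.le i)

/-- The gluing datum of a piece. -/
def Piece.datum (π : Piece Ch Fam t q) : CurveGD k Ch.B₀ Ch.B₁ Ch.B₀₁ (SecRing t π.V) :=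
  Fam.F (SecRing t π.V) π.tuple

variable (hDG : Stmt.DictGlue Ch)

/-- The bundle over `Spec Γ(T, V)` of a piece. -/
def Piece.bundle (π : Piece Ch Fam t q) :
    RigidifiedLineBundle c ε (specStr k (SecRing t π.V)) :=
  (hDG (SecRing t π.V) π.datum π.rig).choose

lemma Piece.corr (π : Piece Ch Fam t q) :
    Corr Ch (SecRing t π.V) (π.bundle hDG).L π.datum :=
  (hDG (SecRing t π.V) π.datum π.rig).choose_spec

/-- Every point of `T` lies in a piece. -/
lemma exists_piece (z : T) : ∃ π : Piece Ch Fam t q, z ∈ π.V := by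
  classical
  -- charts for the images of `z`
  choose a ha using fun i => iSup_chartOpen Ch ((q i).1 z)
  -- the open set where all `q i` land in the chosen charts
  let O : T.Opens := Finset.univ.inf fun i => (q i).1 ⁻¹ᵁ chartOpen Ch (a i)
  have hO : ∀ i, O ≤ (q i).1 ⁻¹ᵁ chartOpen Ch (a i) := fun i =>
    Finset.inf_le (Finset.mem_univ i)
  have hzO : z ∈ O := by
    have : ∀ (s : Finset (Fin Fam.g)),
        z ∈ s.inf fun i => (q i).1 ⁻¹ᵁ chartOpen Ch (a i) := by
      intro s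
      induction s using Finset.induction_on with
      | empty => simp
      | insert i s _ ih =>
        rw [Finset.inf_insert]
        exact ⟨ha i, ih⟩
    exact this _
  -- the prime ideal of functions vanishing at `z`
  let germ : Γ(T, O) →+* T.presheaf.stalk z := (T.presheaf.germ O z hzO).hom
  let 𝔭 : Ideal (SecRing t O) := (IsLocalRing.maximalIdeal (T.presheaf.stalk z)).comap germ
  have h𝔭 : 𝔭.IsPrime := Ideal.comap_isPrime germ _
  obtain ⟨f, hf, hrig⟩ := Fam.locRig (SecRing t O) (fun i => cp Ch (q i) O (a i) (hO i)) 𝔭 h𝔭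
  have hVO : T.basicOpen (show Γ(T, O) from f) ≤ O := T.basicOpen_le _
  have hunit : IsUnit (resAlg t hVO f) :=
    RingedSpace.isUnit_res_basicOpen T.toRingedSpace (show Γ(T, O) from f)
  have hz : z ∈ T.basicOpen (show Γ(T, O) from f) := by
    rw [Scheme.mem_basicOpen _ _ _ hzO]
    by_contra hnu
    exact hf ((IsLocalRing.mem_maximalIdeal _).mpr hnu)
  have key := hrig (SecRing t (T.basicOpen (show Γ(T, O) from f))) (resAlg t hVO) hunit
  refine ⟨⟨T.basicOpen (show Γ(T, O) from f), a, fun i => hVO.trans (hO i), ?_⟩, hz⟩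
  have heq : (fun i => (cp Ch (q i) O (a i) (hO i)).map (resAlg t hVO)) =
      fun i => cp Ch (q i) (T.basicOpen (show Γ(T, O) from f)) (a i) (hVO.trans (hO i)) :=
    funext fun i => cp_map_resAlg Ch (q i) hVO (a i) (hO i)
  rw [heq] at key
  exact key

variable (hDI : Stmt.DictIso Ch) (hDB : Stmt.DictBC Ch)

include hDI hDB in
/-- On the overlap of two pieces the two bundles agree. -/
lemma rIso_overlap (π π' : Piece Ch Fam t q) :
    RIso (restrictLE (onOpen t π.V (π.bundle hDG)) (inf_le_left : π.V ⊓ π'.V ≤ π.V))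
      (restrictLE (onOpen t π'.V (π'.bundle hDG)) (inf_le_right : π.V ⊓ π'.V ≤ π'.V)) := by
  have e1 := rIso_restrictLE_onOpen t (inf_le_left : π.V ⊓ π'.V ≤ π.V) (π.bundle hDG)
  have e2 := rIso_restrictLE_onOpen t (inf_le_right : π.V ⊓ π'.V ≤ π'.V) (π'.bundle hDG)
  have c1 := hDB _ _ (resAlg t (inf_le_left : π.V ⊓ π'.V ≤ π.V)) (π.bundle hDG) π.datum _
    (π.corr hDG) (Fam.bc _ _ (resAlg t (inf_le_left : π.V ⊓ π'.V ≤ π.V)) π.tuple)
  have c2 := hDB _ _ (resAlg t (inf_le_right : π.V ⊓ π'.V ≤ π'.V)) (π'.bundle hDG) π'.datum _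
    (π'.corr hDG) (Fam.bc _ _ (resAlg t (inf_le_right : π.V ⊓ π'.V ≤ π'.V)) π'.tuple)
  have hs : ∀ i, ChartPt.Same Ch.B₀₁
      ((π.tuple i).map (resAlg t (inf_le_left : π.V ⊓ π'.V ≤ π.V)))
      ((π'.tuple i).map (resAlg t (inf_le_right : π.V ⊓ π'.V ≤ π'.V))) := by
    intro i
    unfold Piece.tuple
    rw [cp_map_resAlg, cp_map_resAlg]
    exact cp_same Ch (q i) _ _ _ _ _
  have e3 := (hDI _ _ _ _ _ c1 c2).2 (Fam.same _ _ _ hs)
  exact rIso_trans e1 (rIso_trans (rIso_onOpen t e3) (rIso_symm e2))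

include hDI hDB in
/-- The bundles of the pieces glue to a rigidified bundle over `T`. -/
theorem exists_glued (hGlue : Stmt.SheafGlue c ε) :
    ∃ M₀ : RigidifiedLineBundle c ε t, ∀ π : Piece Ch Fam t q,
      RIso (restrictOpen M₀ π.V) (onOpen t π.V (π.bundle hDG)) := by
  refine hGlue t (fun π : Piece Ch Fam t q => π.V) ?_
    (fun π => onOpen t π.V (π.bundle hDG)) (fun π π' => rIso_overlap hDG hDI hDB π π')
  rw [eq_top_iff]
  intro z _
  obtain ⟨π, hπ⟩ := exists_piece (Ch := Ch) (Fam := Fam) (t := t) (q := q) z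
  exact TopologicalSpace.Opens.mem_iSup.mpr ⟨π, hπ⟩

section Fibre

variable {K : Type u} [Field K] [Algebra k K]

lemma preimage_eq_top_of_mem (p : SchemeHomOver (specStr k K) t) (V : T.Opens)
    (y₀ : Spec (CommRingCat.of K)) (h : p.1 y₀ ∈ V) : p.1 ⁻¹ᵁ V = ⊤ := by
  rw [eq_top_iff]
  intro y _
  have : y = y₀ := Subsingleton.elim _ _
  rw [this]
  exact h

include hDB in
/-- The fibres of the glued bundle at field-valued points are given by the family. -/
theorem exists_fibre (M₀ : RigidifiedLineBundle c ε t)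
    (hM₀ : ∀ π : Piece Ch Fam t q, RIso (restrictOpen M₀ π.V) (onOpen t π.V (π.bundle hDG)))
    (p : SchemeHomOver (specStr k K) t) :
    ∃ (N : RigidifiedLineBundle c ε (specStr k K)) (a : Fin Fam.g → Bool)
      (h : ∀ i, (postComp (q i) p).1 ⁻¹ᵁ chartOpen Ch (a i) = ⊤),
      RIso (M₀.pullbackAlong p) N ∧
        Corr Ch K N.L (Fam.F K (fun i => kcp Ch (postComp (q i) p) (a i) (h i))) := by
  obtain ⟨y₀⟩ : Nonempty (Spec (CommRingCat.of K)) := inferInstance
  obtain ⟨π, hπ⟩ := exists_piece (Ch := Ch) (Fam := Fam) (t := t) (q := q) (p.1 y₀)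
  have hp : p.1 ⁻¹ᵁ π.V = ⊤ := preimage_eq_top_of_mem p π.V y₀ hπ
  have h : ∀ i, (postComp (q i) p).1 ⁻¹ᵁ chartOpen Ch (π.a i) = ⊤ := by
    intro i
    rw [eq_top_iff, ← hp]
    intro y hy
    exact π.le i hy
  refine ⟨(π.bundle hDG).pullbackAlong (specHomOver k (ptAlg p π.V hp)), π.a, h,
    rIso_pullbackAlong_pt t M₀ π.V (π.bundle hDG) (hM₀ π) p hp, ?_⟩
  have c1 := hDB _ _ (ptAlg p π.V hp) (π.bundle hDG) π.datum _
    (π.corr hDG) (Fam.bc _ _ (ptAlg p π.V hp) π.tuple)
  have heq : (fun i => (π.tuple i).map (ptAlg p π.V hp)) =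
      fun i => kcp Ch (postComp (q i) p) (π.a i) (h i) :=
    funext fun i => cp_map_ptAlg Ch (q i) p π.V (π.a i) (π.le i) hp (h i)
  rw [heq] at c1
  exact c1

end Fibre

end Family

end

end Fermat.Agent.S25.H746

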