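import Fermat.Agent.S25.H746.SecRing
import Fermat.Agent.S25.H746.AbelDefs

/-!
# Row S25, block ABEL (helper746): chart points of morphisms to the curve

For a two-chart presentation `Ch : ChartOf c ε`, a morphism of `k`-schemes `q : T ⟶ C` and an
open `W` of `T` mapping into the chart `U_a` we get a chart point of the curve with values in
`Γ(T, W)`; for an `A`-valued point of `C` landing in `U_a` we get a chart point with values in `A`.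
-/

set_option autoImplicit false
universe u
open CategoryTheory CategoryTheory.Limits AlgebraicGeometry AlgebraicGeometry.RelPicard
  NeronModelInfra GoodReductionJacobian
open scoped TensorProduct

namespace Fermat.Agent.S25.H746

open Fermat.Agent.S25

noncomputable section

variable {k : Type u} [Field k] {C : Scheme.{u}} {c : C ⟶ Spec (CommRingCat.of k)}
  {ε : SchemeHomOver (𝟙 (Spec (CommRingCat.of k))) c} (Ch : ChartOf c ε)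

/-- The chart `U₀` (`a = false`) or `U₁` (`a = true`). -/
def chartOpen (a : Bool) : C.Opens := if a then Ch.U₁ else Ch.U₀

@[simp] lemma chartOpen_false : chartOpen Ch false = Ch.U₀ := rfl
@[simp] lemma chartOpen_true : chartOpen Ch true = Ch.U₁ := rfl

lemma iSup_chartOpen : ∀ z : C, ∃ a, z ∈ chartOpen Ch a := by
  intro z
  have hz : z ∈ Ch.U₀ ⊔ Ch.U₁ := by rw [Ch.cover]; trivial
  rcases hz with h | h
  · exact ⟨false, h⟩
  · exact ⟨true, h⟩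

/-- `i₀⁻¹` as a `k`-algebra map. -/
def symmAlg₀ : Ch.B₀ →ₐ[k] SecRing c Ch.U₀ :=
  { Ch.i₀.symm.toRingHom with
    commutes' := fun a => by
      show Ch.i₀.symm (algebraMap k Ch.B₀ a) = sectionsStr c Ch.U₀ a
      rw [← Ch.i₀_str a, RingEquiv.symm_apply_apply] }

/-- `i₁⁻¹` as a `k`-algebra map. -/
def symmAlg₁ : Ch.B₁ →ₐ[k] SecRing c Ch.U₁ :=
  { Ch.i₁.symm.toRingHom with
    commutes' := fun a => by
      show Ch.i₁.symm (algebraMap k Ch.B₁ a) = sectionsStr c Ch.U₁ a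
      rw [← Ch.i₁_str a, RingEquiv.symm_apply_apply] }

lemma i₀₁_str (a : k) : Ch.i₀₁ (sectionsStr c (Ch.U₀ ⊓ Ch.U₁) a) = algebraMap k Ch.B₀₁ a := by
  have h1 : sectionsStr c (Ch.U₀ ⊓ Ch.U₁) a = resRing inf_le_left (sectionsStr c Ch.U₀ a) :=
    (sectionsStr_res c inf_le_left a).symm
  rw [h1, Ch.i₀₁_res₀, Ch.i₀_str, ← IsScalarTower.algebraMap_apply]

/-- `i₀₁⁻¹` as a `k`-algebra map. -/
def symmAlg₀₁ : Ch.B₀₁ →ₐ[k] SecRing c (Ch.U₀ ⊓ Ch.U₁) :=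
  { Ch.i₀₁.symm.toRingHom with
    commutes' := fun a => by
      show Ch.i₀₁.symm (algebraMap k Ch.B₀₁ a) = sectionsStr c (Ch.U₀ ⊓ Ch.U₁) a
      rw [← i₀₁_str Ch a, RingEquiv.symm_apply_apply] }

lemma symmAlg₀₁_algebraMap₀ (b : Ch.B₀) :
    symmAlg₀₁ Ch (algebraMap Ch.B₀ Ch.B₀₁ b) = resAlg c inf_le_left (symmAlg₀ Ch b) := by
  show Ch.i₀₁.symm (algebraMap Ch.B₀ Ch.B₀₁ b) = resRing inf_le_left (Ch.i₀.symm b)
  rw [RingEquiv.symm_apply_eq, Ch.i₀₁_res₀, RingEquiv.apply_symm_apply]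

lemma symmAlg₀₁_algebraMap₁ (b : Ch.B₁) :
    symmAlg₀₁ Ch (algebraMap Ch.B₁ Ch.B₀₁ b) = resAlg c inf_le_right (symmAlg₁ Ch b) := by
  show Ch.i₀₁.symm (algebraMap Ch.B₁ Ch.B₀₁ b) = resRing inf_le_right (Ch.i₁.symm b)
  rw [RingEquiv.symm_apply_eq, Ch.i₀₁_res₁, RingEquiv.apply_symm_apply]

section Maps

variable {T T' : Scheme.{u}} {t : T ⟶ Spec (CommRingCat.of k)}
  {t' : T' ⟶ Spec (CommRingCat.of k)}

lemma resAlg_comp_appAlg (f : SchemeHomOver t' t) {U : T.Opens} {W W' : T'.Opens}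
    (h : W ≤ f.1 ⁻¹ᵁ U) (hle : W' ≤ W) :
    (resAlg t' hle).comp (appAlg f U W h) = appAlg f U W' (hle.trans h) := by
  apply AlgHom.ext
  intro s
  have key : f.1.appLE U W h ≫ T'.presheaf.map (homOfLE hle).op =
      f.1.appLE U W' (hle.trans h) := Scheme.Hom.appLE_map _ _ _
  exact congrArg (fun φ : Γ(T, U) ⟶ Γ(T', W') => φ.hom s) key

lemma appAlg_comp_resAlg (f : SchemeHomOver t' t) {U U' : T.Opens} {W : T'.Opens}
    (h : W ≤ f.1 ⁻¹ᵁ U') (hle : U' ≤ U) :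
    (appAlg f U' W h).comp (resAlg t hle) =
      appAlg f U W (h.trans (Scheme.Hom.preimage_mono f.1 hle)) := by
  apply AlgHom.ext
  intro s
  have key : T.presheaf.map (homOfLE hle).op ≫ f.1.appLE U' W h =
      f.1.appLE U W (h.trans (Scheme.Hom.preimage_mono f.1 hle)) := Scheme.Hom.map_appLE _ _ _
  exact congrArg (fun φ : Γ(T, U) ⟶ Γ(T', W) => φ.hom s) key

lemma ptAlg_comp_appAlg {A : Type u} [CommRing A] [Algebra k A]
    (p : SchemeHomOver (specStr k A) t') (f : SchemeHomOver t' t) {U : T.Opens} {W : T'.Opens}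
    (h : W ≤ f.1 ⁻¹ᵁ U) (hp : p.1 ⁻¹ᵁ W = ⊤) (hp' : (postComp f p).1 ⁻¹ᵁ U = ⊤) :
    (ptAlg p W hp).comp (appAlg f U W h) = ptAlg (postComp f p) U hp' := by
  apply AlgHom.ext
  intro s
  have key : f.1.appLE U W h ≫ p.1.appLE W ⊤ (le_of_eq hp.symm) =
      (postComp f p).1.appLE U ⊤ (le_of_eq hp'.symm) := Scheme.Hom.appLE_comp_appLE _ _ _ _ _ _ _
  exact congrArg (fun φ : Γ(T, U) ⟶ Γ(Spec (CommRingCat.of A), ⊤) =>
    (Scheme.ΓSpecIso (CommRingCat.of A)).hom (φ.hom s)) key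

lemma ptAlg_comp_resAlg {A : Type u} [CommRing A] [Algebra k A]
    (p : SchemeHomOver (specStr k A) t) {U U' : T.Opens} (hle : U' ≤ U)
    (hp : p.1 ⁻¹ᵁ U' = ⊤) (hp' : p.1 ⁻¹ᵁ U = ⊤) :
    (ptAlg p U' hp).comp (resAlg t hle) = ptAlg p U hp' := by
  apply AlgHom.ext
  intro s
  have key : T.presheaf.map (homOfLE hle).op ≫ p.1.appLE U' ⊤ (le_of_eq hp.symm) =
      p.1.appLE U ⊤ (le_of_eq hp'.symm) := Scheme.Hom.map_appLE _ _ _
  exact congrArg (fun φ : Γ(T, U) ⟶ Γ(Spec (CommRingCat.of A), ⊤) =>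
    (Scheme.ΓSpecIso (CommRingCat.of A)).hom (φ.hom s)) key

end Maps

section ChartPoints

variable {T : Scheme.{u}} {t : T ⟶ Spec (CommRingCat.of k)}

/-- The chart point with values in `Γ(T, W)` of a morphism `q : T ⟶ C` mapping `W` into the
chart `U_a`. -/
def cp (q : SchemeHomOver t c) (W : T.Opens) :
    (a : Bool) → W ≤ q.1 ⁻¹ᵁ chartOpen Ch a → ChartPt k Ch.B₀ Ch.B₁ (SecRing t W)
  | false, h => Sum.inl ((appAlg q Ch.U₀ W h).comp (symmAlg₀ Ch))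
  | true, h => Sum.inr ((appAlg q Ch.U₁ W h).comp (symmAlg₁ Ch))

lemma cp_map_resAlg (q : SchemeHomOver t c) {W W' : T.Opens} (hle : W' ≤ W) (a : Bool)
    (h : W ≤ q.1 ⁻¹ᵁ chartOpen Ch a) :
    (cp Ch q W a h).map (resAlg t hle) = cp Ch q W' a (hle.trans h) := by
  cases a
  · have h0 : W ≤ q.1 ⁻¹ᵁ Ch.U₀ := h
    show Sum.inl ((resAlg t hle).comp ((appAlg q Ch.U₀ W h0).comp (symmAlg₀ Ch))) =
      Sum.inl ((appAlg q Ch.U₀ W' (hle.trans h0)).comp (symmAlg₀ Ch))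
    rw [← AlgHom.comp_assoc, resAlg_comp_appAlg]
  · have h1 : W ≤ q.1 ⁻¹ᵁ Ch.U₁ := h
    show Sum.inr ((resAlg t hle).comp ((appAlg q Ch.U₁ W h1).comp (symmAlg₁ Ch))) =
      Sum.inr ((appAlg q Ch.U₁ W' (hle.trans h1)).comp (symmAlg₁ Ch))
    rw [← AlgHom.comp_assoc, resAlg_comp_appAlg]

lemma cp_same (q : SchemeHomOver t c) (W : T.Opens) (a a' : Bool)
    (h : W ≤ q.1 ⁻¹ᵁ chartOpen Ch a) (h' : W ≤ q.1 ⁻¹ᵁ chartOpen Ch a') :
    ChartPt.Same Ch.B₀₁ (cp Ch q W a h) (cp Ch q W a' h') := by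
  have h01 : ∀ (h0 : W ≤ q.1 ⁻¹ᵁ Ch.U₀) (h1 : W ≤ q.1 ⁻¹ᵁ Ch.U₁),
      ∃ φ : Ch.B₀₁ →ₐ[k] SecRing t W,
        (appAlg q Ch.U₀ W h0).comp (symmAlg₀ Ch) =
            φ.comp (IsScalarTower.toAlgHom k Ch.B₀ Ch.B₀₁) ∧
          (appAlg q Ch.U₁ W h1).comp (symmAlg₁ Ch) =
            φ.comp (IsScalarTower.toAlgHom k Ch.B₁ Ch.B₀₁) := by
    intro h0 h1
    have h2 : W ≤ q.1 ⁻¹ᵁ (Ch.U₀ ⊓ Ch.U₁) := fun z hz => ⟨h0 hz, h1 hz⟩
    refine ⟨(appAlg q (Ch.U₀ ⊓ Ch.U₁) W h2).comp (symmAlg₀₁ Ch), ?_, ?_⟩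
    · apply AlgHom.ext
      intro b
      show appAlg q Ch.U₀ W h0 (symmAlg₀ Ch b) =
        appAlg q (Ch.U₀ ⊓ Ch.U₁) W h2 (symmAlg₀₁ Ch (algebraMap Ch.B₀ Ch.B₀₁ b))
      rw [symmAlg₀₁_algebraMap₀]
      exact (congrArg (fun φ => φ (symmAlg₀ Ch b))
        (appAlg_comp_resAlg q h2 inf_le_left)).symm
    · apply AlgHom.ext
      intro b
      show appAlg q Ch.U₁ W h1 (symmAlg₁ Ch b) =
        appAlg q (Ch.U₀ ⊓ Ch.U₁) W h2 (symmAlg₀₁ Ch (algebraMap Ch.B₁ Ch.B₀₁ b))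
      rw [symmAlg₀₁_algebraMap₁]
      exact (congrArg (fun φ => φ (symmAlg₁ Ch b))
        (appAlg_comp_resAlg q h2 inf_le_right)).symm
  cases a <;> cases a'
  · exact Or.inl rfl
  · obtain ⟨φ, e0, e1⟩ := h01 h h'
    exact Or.inr ⟨φ, Or.inl ⟨congrArg Sum.inl e0, congrArg Sum.inr e1⟩⟩
  · obtain ⟨φ, e0, e1⟩ := h01 h' h
    exact Or.inr ⟨φ, Or.inr ⟨congrArg Sum.inr e1, congrArg Sum.inl e0⟩⟩
  · exact Or.inl rfl

variable {A : Type u} [CommRing A] [Algebra k A]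

/-- The chart point with values in `A` of an `A`-valued point of `C` landing in `U_a`. -/
def kcp (q : SchemeHomOver (specStr k A) c) :
    (a : Bool) → q.1 ⁻¹ᵁ chartOpen Ch a = ⊤ → ChartPt k Ch.B₀ Ch.B₁ A
  | false, h => Sum.inl ((ptAlg q Ch.U₀ h).comp (symmAlg₀ Ch))
  | true, h => Sum.inr ((ptAlg q Ch.U₁ h).comp (symmAlg₁ Ch))

lemma cp_map_ptAlg (q : SchemeHomOver t c) (p : SchemeHomOver (specStr k A) t) (W : T.Opens)
    (a : Bool) (h : W ≤ q.1 ⁻¹ᵁ chartOpen Ch a) (hp : p.1 ⁻¹ᵁ W = ⊤)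
    (hp' : (postComp q p).1 ⁻¹ᵁ chartOpen Ch a = ⊤) :
    (cp Ch q W a h).map (ptAlg p W hp) = kcp Ch (postComp q p) a hp' := by
  cases a
  · have h0 : W ≤ q.1 ⁻¹ᵁ Ch.U₀ := h
    have hp0 : (postComp q p).1 ⁻¹ᵁ Ch.U₀ = ⊤ := hp'
    show Sum.inl ((ptAlg p W hp).comp ((appAlg q Ch.U₀ W h0).comp (symmAlg₀ Ch))) =
      Sum.inl ((ptAlg (postComp q p) Ch.U₀ hp0).comp (symmAlg₀ Ch))
    rw [← AlgHom.comp_assoc, ptAlg_comp_appAlg p q h0 hp hp0]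
  · have h1 : W ≤ q.1 ⁻¹ᵁ Ch.U₁ := h
    have hp1 : (postComp q p).1 ⁻¹ᵁ Ch.U₁ = ⊤ := hp'
    show Sum.inr ((ptAlg p W hp).comp ((appAlg q Ch.U₁ W h1).comp (symmAlg₁ Ch))) =
      Sum.inr ((ptAlg (postComp q p) Ch.U₁ hp1).comp (symmAlg₁ Ch))
    rw [← AlgHom.comp_assoc, ptAlg_comp_appAlg p q h1 hp hp1]

lemma kcp_same (q : SchemeHomOver (specStr k A) c) (a a' : Bool)
    (h : q.1 ⁻¹ᵁ chartOpen Ch a = ⊤) (h' : q.1 ⁻¹ᵁ chartOpen Ch a' = ⊤) :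
    ChartPt.Same Ch.B₀₁ (kcp Ch q a h) (kcp Ch q a' h') := by
  have h01 : ∀ (h0 : q.1 ⁻¹ᵁ Ch.U₀ = ⊤) (h1 : q.1 ⁻¹ᵁ Ch.U₁ = ⊤),
      ∃ φ : Ch.B₀₁ →ₐ[k] A,
        (ptAlg q Ch.U₀ h0).comp (symmAlg₀ Ch) =
            φ.comp (IsScalarTower.toAlgHom k Ch.B₀ Ch.B₀₁) ∧
          (ptAlg q Ch.U₁ h1).comp (symmAlg₁ Ch) =
            φ.comp (IsScalarTower.toAlgHom k Ch.B₁ Ch.B₀₁) := by
    intro h0 h1
    have h2 : q.1 ⁻¹ᵁ (Ch.U₀ ⊓ Ch.U₁) = ⊤ := by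
      rw [Scheme.Hom.preimage_inf, h0, h1, inf_idem]
    refine ⟨(ptAlg q (Ch.U₀ ⊓ Ch.U₁) h2).comp (symmAlg₀₁ Ch), ?_, ?_⟩
    · apply AlgHom.ext
      intro b
      show ptAlg q Ch.U₀ h0 (symmAlg₀ Ch b) =
        ptAlg q (Ch.U₀ ⊓ Ch.U₁) h2 (symmAlg₀₁ Ch (algebraMap Ch.B₀ Ch.B₀₁ b))
      rw [symmAlg₀₁_algebraMap₀]
      exact (congrArg (fun φ => φ (symmAlg₀ Ch b))
        (ptAlg_comp_resAlg q inf_le_left h2 h0)).symm
    · apply AlgHom.ext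
      intro b
      show ptAlg q Ch.U₁ h1 (symmAlg₁ Ch b) =
        ptAlg q (Ch.U₀ ⊓ Ch.U₁) h2 (symmAlg₀₁ Ch (algebraMap Ch.B₁ Ch.B₀₁ b))
      rw [symmAlg₀₁_algebraMap₁]
      exact (congrArg (fun φ => φ (symmAlg₁ Ch b))
        (ptAlg_comp_resAlg q inf_le_right h2 h1)).symm
  cases a <;> cases a'
  · exact Or.inl rfl
  · obtain ⟨φ, e0, e1⟩ := h01 h h'
    exact Or.inr ⟨φ, Or.inl ⟨congrArg Sum.inl e0, congrArg Sum.inr e1⟩⟩
  · obtain ⟨φ, e0, e1⟩ := h01 h' h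
    exact Or.inr ⟨φ, Or.inr ⟨congrArg Sum.inr e1, congrArg Sum.inl e0⟩⟩
  · exact Or.inl rfl

end ChartPoints

section PointsOfCharts

variable {A : Type u} [CommRing A] [Algebra k A]

lemma fromSpec_comp_str {U : C.Opens} (hU : IsAffineOpen U) :
    hU.fromSpec ≫ c = Spec.map (CommRingCat.ofHom (sectionsStr c U)) := by
  have h := toSpecΓ_comp_specStr c U
  rw [← hU.isoSpec_inv_ι, Category.assoc, ← h, ← Category.assoc]
  rw [← hU.isoSpec_hom, Iso.inv_hom_id, Category.id_comp]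

/-- An algebra map out of `Γ(T, V)` as a morphism of `CommRingCat`. -/
def rawHom {T : Scheme.{u}} {t : T ⟶ Spec (CommRingCat.of k)} {V : T.Opens}
    (σ : SecRing t V →ₐ[k] A) : Γ(T, V) ⟶ CommRingCat.of A :=
  CommRingCat.ofHom σ.toRingHom

lemma rawHom_str {T : Scheme.{u}} {t : T ⟶ Spec (CommRingCat.of k)} {V : T.Opens}
    (σ : SecRing t V →ₐ[k] A) :
    CommRingCat.ofHom (sectionsStr t V) ≫ rawHom σ = CommRingCat.ofHom (algebraMap k A) := by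
  ext a
  exact σ.commutes a

lemma ptRaw_comp_str {U : C.Opens} (hU : IsAffineOpen U) (σ : Γ(C, U) ⟶ CommRingCat.of A)
    (hσ : CommRingCat.ofHom (sectionsStr c U) ≫ σ = CommRingCat.ofHom (algebraMap k A)) :
    (Spec.map σ ≫ hU.fromSpec) ≫ c = specStr k A := by
  rw [Category.assoc, fromSpec_comp_str hU, ← Spec.map_comp, hσ]

/-- The `A`-valued point of `C` attached to a ring map `Γ(C, U) → A` (`U` affine). -/
def ptOfRingHom {U : C.Opens} (hU : IsAffineOpen U) (σ : SecRing c U →ₐ[k] A) :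
    SchemeHomOver (specStr k A) c :=
  ⟨Spec.map (rawHom σ) ≫ hU.fromSpec, ptRaw_comp_str hU (rawHom σ) (rawHom_str σ)⟩

lemma ptOfRingHom_preimage {U : C.Opens} (hU : IsAffineOpen U) (σ : SecRing c U →ₐ[k] A) :
    (ptOfRingHom hU σ).1 ⁻¹ᵁ U = ⊤ := by
  show (Spec.map (rawHom σ) ≫ hU.fromSpec) ⁻¹ᵁ U = ⊤
  rw [Scheme.Hom.comp_preimage, hU.fromSpec_preimage_self]
  rfl

lemma liftPt_ptOfRingHom {U : C.Opens} (hU : IsAffineOpen U) (σ : SecRing c U →ₐ[k] A)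
    (h : (ptOfRingHom hU σ).1 ⁻¹ᵁ U = ⊤) :
    (liftPt (ptOfRingHom hU σ) U h).1 = Spec.map (rawHom σ) ≫ hU.isoSpec.inv := by
  rw [← cancel_mono U.ι, liftPt_ι, Category.assoc, hU.isoSpec_inv_ι]
  rfl

lemma ptAlg_ptOfRingHom {U : C.Opens} (hU : IsAffineOpen U) (σ : SecRing c U →ₐ[k] A)
    (h : (ptOfRingHom hU σ).1 ⁻¹ᵁ U = ⊤) :
    ptAlg (ptOfRingHom hU σ) U h = σ := by
  have h2 : Spec.map (rawHom σ) = Spec.map (rawHom (ptAlg (ptOfRingHom hU σ) U h)) := by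
    have h3 := liftPt_toSpecΓ (ptOfRingHom hU σ) U h
    rw [liftPt_ptOfRingHom hU σ h, Category.assoc, ← hU.isoSpec_hom, Iso.inv_hom_id,
      Category.comp_id] at h3
    exact h3
  have h3 := Spec.map_injective h2
  apply AlgHom.ext
  intro s
  exact (congrArg (fun φ : Γ(C, U) ⟶ CommRingCat.of A => φ.hom s) h3).symm

/-- `i₀` as a `k`-algebra map. -/
def toAlg₀ : SecRing c Ch.U₀ →ₐ[k] Ch.B₀ :=
  { Ch.i₀.toRingHom with commutes' := fun a => Ch.i₀_str a }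

/-- `i₁` as a `k`-algebra map. -/
def toAlg₁ : SecRing c Ch.U₁ →ₐ[k] Ch.B₁ :=
  { Ch.i₁.toRingHom with commutes' := fun a => Ch.i₁_str a }

lemma toAlg₀_comp_symmAlg₀ : (toAlg₀ Ch).comp (symmAlg₀ Ch) = AlgHom.id k Ch.B₀ :=
  AlgHom.ext fun b => Ch.i₀.apply_symm_apply b

lemma toAlg₁_comp_symmAlg₁ : (toAlg₁ Ch).comp (symmAlg₁ Ch) = AlgHom.id k Ch.B₁ :=
  AlgHom.ext fun b => Ch.i₁.apply_symm_apply b

/-- The chart of a chart point. -/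
def chartOf : ChartPt k Ch.B₀ Ch.B₁ A → Bool
  | Sum.inl _ => false
  | Sum.inr _ => true

/-- The `A`-valued point of `C` defined by a chart point. -/
def ptOfChartPt : ChartPt k Ch.B₀ Ch.B₁ A → SchemeHomOver (specStr k A) c
  | Sum.inl φ => ptOfRingHom Ch.isAffine₀ (φ.comp (toAlg₀ Ch))
  | Sum.inr φ => ptOfRingHom Ch.isAffine₁ (φ.comp (toAlg₁ Ch))

lemma ptOfChartPt_preimage (P : ChartPt k Ch.B₀ Ch.B₁ A) :
    (ptOfChartPt Ch P).1 ⁻¹ᵁ chartOpen Ch (chartOf Ch P) = ⊤ := by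
  cases P with
  | inl φ => exact ptOfRingHom_preimage Ch.isAffine₀ _
  | inr φ => exact ptOfRingHom_preimage Ch.isAffine₁ _

lemma kcp_ptOfChartPt (P : ChartPt k Ch.B₀ Ch.B₁ A)
    (h : (ptOfChartPt Ch P).1 ⁻¹ᵁ chartOpen Ch (chartOf Ch P) = ⊤) :
    kcp Ch (ptOfChartPt Ch P) (chartOf Ch P) h = P := by
  cases P with
  | inl φ =>
    have h0 : (ptOfRingHom Ch.isAffine₀ (φ.comp (toAlg₀ Ch))).1 ⁻¹ᵁ Ch.U₀ = ⊤ := h
    show Sum.inl ((ptAlg (ptOfRingHom Ch.isAffine₀ (φ.comp (toAlg₀ Ch))) Ch.U₀ h0).comp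
      (symmAlg₀ Ch)) = Sum.inl φ
    rw [ptAlg_ptOfRingHom, AlgHom.comp_assoc, toAlg₀_comp_symmAlg₀, AlgHom.comp_id]
  | inr φ =>
    have h1 : (ptOfRingHom Ch.isAffine₁ (φ.comp (toAlg₁ Ch))).1 ⁻¹ᵁ Ch.U₁ = ⊤ := h
    show Sum.inr ((ptAlg (ptOfRingHom Ch.isAffine₁ (φ.comp (toAlg₁ Ch))) Ch.U₁ h1).comp
      (symmAlg₁ Ch)) = Sum.inr φ
    rw [ptAlg_ptOfRingHom, AlgHom.comp_assoc, toAlg₁_comp_symmAlg₁, AlgHom.comp_id]

end PointsOfCharts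

section Eps

lemma specStr_self : specStr k k = 𝟙 (Spec (CommRingCat.of k)) := by
  unfold specStr
  rw [Algebra.algebraMap_self]
  exact Spec.map_id _

/-- The marked point `ε` as a `k`-valued point. -/
def epsPt : SchemeHomOver (specStr k k) c := ⟨ε.1, ε.2.trans specStr_self.symm⟩

lemma epsPt_preimage : (epsPt (ε := ε)).1 ⁻¹ᵁ chartOpen Ch true = ⊤ := Ch.eps_mem

lemma kcp_epsPt (h : (epsPt (ε := ε)).1 ⁻¹ᵁ chartOpen Ch true = ⊤) :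
    kcp Ch (epsPt (ε := ε)) true h = Sum.inr Ch.e := by
  have h1 : (epsPt (ε := ε)).1 ⁻¹ᵁ Ch.U₁ = ⊤ := h
  show Sum.inr ((ptAlg (epsPt (ε := ε)) Ch.U₁ h1).comp (symmAlg₁ Ch)) = Sum.inr Ch.e
  congr 1
  apply AlgHom.ext
  intro b
  have h2 := Ch.e_eq (Ch.i₁.symm b)
  rw [RingEquiv.apply_symm_apply] at h2
  rw [h2]
  rfl

end Eps

end

end Fermat.Agent.S25.H746
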