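import Fermat.Agent.S25.DefsDict
import Fermat.Agent.S25.H327.PullbackComp

/-!
# Row S25, block ABEL (helper746): rings of sections as `k`-algebras

For a `k`-scheme `t : T ⟶ Spec k` and an open `V` of `T` the ring `Γ(T, V)` is a `k`-algebra;
`SecRing t V` is this ring with the algebra structure recorded in the type.  We provide the
canonical morphism `V ⟶ Spec Γ(T, V)` over `k`, restriction maps, the maps induced by
morphisms of `k`-schemes, and evaluation at field-valued points, all as `k`-algebra maps.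
-/

set_option autoImplicit false
universe u
open CategoryTheory CategoryTheory.Limits AlgebraicGeometry AlgebraicGeometry.RelPicard
  NeronModelInfra GoodReductionJacobian
open scoped TensorProduct

namespace Fermat.Agent.S25.H746

open Fermat.Agent.S25

noncomputable section

variable {k : Type u} [Field k]

/-- `Γ(T, V)` as a `k`-algebra, for a scheme `t : T ⟶ Spec k`. -/
def SecRing {T : Scheme.{u}} (_t : T ⟶ Spec (CommRingCat.of k)) (V : T.Opens) : Type u :=
  Γ(T, V)

instance instCommRingSecRing {T : Scheme.{u}} (t : T ⟶ Spec (CommRingCat.of k)) (V : T.Opens) :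
    CommRing (SecRing t V) := inferInstanceAs (CommRing Γ(T, V))

instance instAlgebraSecRing {T : Scheme.{u}} (t : T ⟶ Spec (CommRingCat.of k)) (V : T.Opens) :
    Algebra k (SecRing t V) := (sectionsStr t V).toAlgebra

lemma algebraMap_secRing {T : Scheme.{u}} (t : T ⟶ Spec (CommRingCat.of k)) (V : T.Opens)
    (a : k) : algebraMap k (SecRing t V) a = sectionsStr t V a := rfl

lemma toSpecΓ_comp_specStr {T : Scheme.{u}} (t : T ⟶ Spec (CommRingCat.of k)) (V : T.Opens) :
    V.toSpecΓ ≫ Spec.map (CommRingCat.ofHom (sectionsStr t V)) = V.ι ≫ t := by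
  unfold sectionsStr
  simp only [CommRingCat.ofHom_hom, Spec.map_comp, Category.assoc]
  rw [Scheme.Opens.toSpecΓ_SpecMap_presheaf_map_top_assoc]
  rw [← Scheme.toSpecΓ_naturality_assoc]
  simp

/-- The canonical morphism `V ⟶ Spec Γ(T, V)`, over `k`. -/
def toSpecSec {T : Scheme.{u}} (t : T ⟶ Spec (CommRingCat.of k)) (V : T.Opens) :
    SchemeHomOver (V.ι ≫ t) (specStr k (SecRing t V)) :=
  ⟨V.toSpecΓ, toSpecΓ_comp_specStr t V⟩

lemma sectionsStr_res {T : Scheme.{u}} (t : T ⟶ Spec (CommRingCat.of k)) {V W : T.Opens}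
    (h : W ≤ V) (a : k) :
    (T.presheaf.map (homOfLE h).op).hom (sectionsStr t V a) = sectionsStr t W a := by
  unfold sectionsStr
  simp only [CommRingCat.hom_comp, RingHom.coe_comp, Function.comp_apply]
  rw [← CommRingCat.comp_apply, ← Functor.map_comp]
  rfl

/-- Restriction of functions as a `k`-algebra map. -/
def resAlg {T : Scheme.{u}} (t : T ⟶ Spec (CommRingCat.of k)) {V W : T.Opens} (h : W ≤ V) :
    SecRing t V →ₐ[k] SecRing t W :=
  { (T.presheaf.map (homOfLE h).op).hom with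
    commutes' := fun a => sectionsStr_res t h a }

lemma resAlg_apply {T : Scheme.{u}} (t : T ⟶ Spec (CommRingCat.of k)) {V W : T.Opens}
    (h : W ≤ V) (f : Γ(T, V)) :
    resAlg t h f = (T.presheaf.map (homOfLE h).op).hom f := rfl

lemma sectionsStr_hom_eq {T : Scheme.{u}} (t : T ⟶ Spec (CommRingCat.of k)) (V : T.Opens) :
    CommRingCat.ofHom (sectionsStr t V) =
      (Scheme.ΓSpecIso (CommRingCat.of k)).inv ≫
        t.appLE ⊤ V (show V ≤ t ⁻¹ᵁ ⊤ from fun _ _ => trivial) := by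
  rfl

lemma sectionsStr_appLE {T T' : Scheme.{u}} {t : T ⟶ Spec (CommRingCat.of k)}
    {t' : T' ⟶ Spec (CommRingCat.of k)} (f : SchemeHomOver t' t) (U : T.Opens) (W : T'.Opens)
    (h : W ≤ f.1 ⁻¹ᵁ U) (a : k) :
    (f.1.appLE U W h).hom (sectionsStr t U a) = sectionsStr t' W a := by
  obtain ⟨f, rfl⟩ := f
  have key : CommRingCat.ofHom (sectionsStr t U) ≫ f.appLE U W h =
      CommRingCat.ofHom (sectionsStr (f ≫ t) W) := by
    rw [sectionsStr_hom_eq, sectionsStr_hom_eq, Category.assoc, Scheme.Hom.appLE_comp_appLE]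
  exact congrArg (fun φ => φ.hom a) key

/-- The map on functions induced by a morphism of `k`-schemes, as a `k`-algebra map. -/
def appAlg {T T' : Scheme.{u}} {t : T ⟶ Spec (CommRingCat.of k)}
    {t' : T' ⟶ Spec (CommRingCat.of k)} (f : SchemeHomOver t' t) (U : T.Opens) (W : T'.Opens)
    (h : W ≤ f.1 ⁻¹ᵁ U) : SecRing t U →ₐ[k] SecRing t' W :=
  { (f.1.appLE U W h).hom with
    commutes' := fun a => sectionsStr_appLE f U W h a }

section Points

variable {T : Scheme.{u}} {t : T ⟶ Spec (CommRingCat.of k)} {A : Type u} [CommRing A]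
  [Algebra k A]

lemma sectionsStr_top_hom_eq {T : Scheme.{u}} (t : T ⟶ Spec (CommRingCat.of k)) :
    CommRingCat.ofHom (sectionsStr t ⊤) =
      (Scheme.ΓSpecIso (CommRingCat.of k)).inv ≫ t.appTop := by
  unfold sectionsStr
  rw [CommRingCat.ofHom_hom]
  have h1 : (homOfLE (le_top : (⊤ : T.Opens) ≤ ⊤)).op = 𝟙 _ := Subsingleton.elim _ _
  rw [h1]
  simp

lemma sectionsStr_specStr_top (a : k) :
    (Scheme.ΓSpecIso (CommRingCat.of A)).hom (sectionsStr (specStr k A) ⊤ a) =
      algebraMap k A a := by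
  have key : CommRingCat.ofHom (sectionsStr (specStr k A) ⊤) ≫
      (Scheme.ΓSpecIso (CommRingCat.of A)).hom = CommRingCat.ofHom (algebraMap k A) := by
    rw [sectionsStr_top_hom_eq, Category.assoc]
    unfold specStr
    rw [Scheme.ΓSpecIso_naturality, Iso.inv_hom_id_assoc]
  exact congrArg (fun φ => φ.hom a) key

/-- Evaluation of functions at an `A`-valued point whose image lies in `V`. -/
def ptAlg (p : SchemeHomOver (specStr k A) t) (V : T.Opens) (h : p.1 ⁻¹ᵁ V = ⊤) :
    SecRing t V →ₐ[k] A :=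
  { ((p.1.appLE V ⊤ (le_of_eq h.symm)) ≫ (Scheme.ΓSpecIso (CommRingCat.of A)).hom).hom with
    commutes' := fun a => by
      show (Scheme.ΓSpecIso (CommRingCat.of A)).hom
        ((p.1.appLE V ⊤ (le_of_eq h.symm)).hom (sectionsStr t V a)) = algebraMap k A a
      rw [sectionsStr_appLE p V ⊤ (le_of_eq h.symm) a]
      exact sectionsStr_specStr_top a }

/-- An `A`-valued point whose image lies in `V`, as a point of `V`. -/
def liftPt (p : SchemeHomOver (specStr k A) t) (V : T.Opens) (h : p.1 ⁻¹ᵁ V = ⊤) :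
    SchemeHomOver (specStr k A) (V.ι ≫ t) :=
  ⟨(Spec (CommRingCat.of A)).topIso.inv ≫ p.1.resLE V ⊤ (le_of_eq h.symm), by
    rw [Category.assoc, Scheme.Hom.resLE_comp_ι_assoc, p.2]
    simp⟩

lemma liftPt_ι (p : SchemeHomOver (specStr k A) t) (V : T.Opens) (h : p.1 ⁻¹ᵁ V = ⊤) :
    (liftPt p V h).1 ≫ V.ι = p.1 := by
  unfold liftPt
  rw [Category.assoc, Scheme.Hom.resLE_comp_ι]
  simp

lemma postComp_liftPt (p : SchemeHomOver (specStr k A) t) (V : T.Opens) (h : p.1 ⁻¹ᵁ V = ⊤) :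
    postComp (⟨V.ι, rfl⟩ : SchemeHomOver (V.ι ≫ t) t) (liftPt p V h) = p :=
  Subtype.ext (liftPt_ι p V h)

lemma liftPt_toSpecΓ_aux (p : SchemeHomOver (specStr k A) t) (V : T.Opens) (h : p.1 ⁻¹ᵁ V = ⊤) :
    ((Spec (CommRingCat.of A)).topIso.inv ≫ p.1.resLE V ⊤ (le_of_eq h.symm)) ≫ V.toSpecΓ =
      Spec.map ((p.1.appLE V ⊤ (le_of_eq h.symm)) ≫
        (Scheme.ΓSpecIso (CommRingCat.of A)).hom) := by
  rw [Spec.map_comp, SpecMap_ΓSpecIso_hom]
  rw [Category.assoc, ← Scheme.Opens.toSpecΓ_SpecMap_appLE, Scheme.Opens.toSpecΓ_top]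
  simp

lemma liftPt_toSpecΓ (p : SchemeHomOver (specStr k A) t) (V : T.Opens) (h : p.1 ⁻¹ᵁ V = ⊤) :
    (liftPt p V h).1 ≫ V.toSpecΓ =
      Spec.map (CommRingCat.ofHom (ptAlg p V h).toRingHom) :=
  liftPt_toSpecΓ_aux p V h

lemma postComp_toSpecSec_liftPt (p : SchemeHomOver (specStr k A) t) (V : T.Opens)
    (h : p.1 ⁻¹ᵁ V = ⊤) :
    postComp (toSpecSec t V) (liftPt p V h) = specHomOver k (ptAlg p V h) :=
  Subtype.ext (liftPt_toSpecΓ p V h)

end Points

section Restrict

variable {T : Scheme.{u}} (t : T ⟶ Spec (CommRingCat.of k))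

/-- The inclusion of a smaller open, over `k` (as in `restrictLE`). -/
def inclLE {V W : T.Opens} (h : W ≤ V) : SchemeHomOver (W.ι ≫ t) (V.ι ≫ t) :=
  ⟨T.homOfLE h, by rw [← Category.assoc, Scheme.homOfLE_ι]⟩

lemma postComp_toSpecSec_inclLE {V W : T.Opens} (h : W ≤ V) :
    postComp (toSpecSec t V) (inclLE t h) =
      postComp (specHomOver k (resAlg t h)) (toSpecSec t W) :=
  Subtype.ext (Scheme.Opens.toSpecΓ_SpecMap_presheaf_map W V h).symm

end Restrict

end

end Fermat.Agent.S25.H746
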